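import Fermat.Agent.Genus.PlacesOver
import Fermat.Agent.Genus.LocalValuation
import Fermat.Agent.Genus.CuspValuation
import Fermat.Agent.Genus.Orbits
import Fermat.Agent.Genus.JFunction
import Fermat.Agent.ModFun.Field
import Fermat.Agent.Gamma0.Cusps
import Fermat.Agent.Gamma0.OrbitSum
import Fermat.Agent.Gamma0.Cocycle
import Fermat.Agent.FF.RiemannRoch

/-!
# Places of `X₀(N)` over `j = 0, 1728, ∞` and elsewhere
-/

set_option autoImplicit false

noncomputable section

open UpperHalfPlane hiding I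
open MatrixGroups CongruenceSubgroup AlgebraicCurve ModularCurve
open scoped WithZero IntermediateField

attribute [local instance 20000] SubalgebraClass.toAlgebra

namespace Fermat.Agent.Genus

local notation "Qb" => AlgebraicClosure ℚ

variable (N : ℕ) [NeZero N]

/-- The function field of `X₀(N)` over `Qb`. -/
abbrev Fbar : Type := modularFunctionFieldBar N

/-- `j` in it. -/
abbrev jB : Fbar N := ModFun.jBase N Qb

/-- A fixed embedding of the constants into `ℂ`. -/
def toC0 : Qb →+* ℂ :=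
  haveI : Algebra.IsAlgebraic ℚ Qb := AlgebraicClosure.isAlgebraic ℚ
  (IsAlgClosed.lift : Qb →ₐ[ℚ] ℂ).toRingHom

omit [NeZero N] in
lemma coeffMap_mem_FC {x : LaurentSeries Qb} (hx : x ∈ modularFunctionFieldBar N) :
    coeffMap toC0 x ∈ ModFun.FC N := by
  rw [modularFunctionFieldBar, ModFun.laurentBaseChange_eq_fullC, modularFunctionFieldFullC] at hx
  induction hx using IntermediateField.adjoin_induction with
  | mem z hz =>
    obtain ⟨d, hd, hdN, rfl⟩ := hz
    rw [coeffMap_qExpand, coeffMap_jqModC]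
    exact jqModCd_mem_full ℂ N hdN
  | algebraMap c =>
    rw [algebraMap_laurentSeries_eq_single, coeffMap_single, ← algebraMap_laurentSeries_eq_single]
    exact (ModFun.FC N).algebraMap_mem _
  | add a c _ _ ha hc => rw [map_add]; exact add_mem ha hc
  | inv a _ ha => rw [map_inv₀]; exact inv_mem ha
  | mul a c _ _ ha hc => rw [map_mul]; exact mul_mem ha hc

/-- Extension of constants to `ℂ`. -/
def incl : Fbar N →+* ModFun.FC N :=
  ((coeffMap toC0).comp (modularFunctionFieldBar N).toSubalgebra.subtype).codRestrict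
    (ModFun.FC N).toSubalgebra.toSubring fun x => coeffMap_mem_FC N x.2

omit [NeZero N] in
lemma coe_incl (x : Fbar N) :
    (incl N x : LaurentSeries ℂ) = coeffMap toC0 (x : LaurentSeries Qb) := rfl

lemma incl_jB : incl N (jB N) = ModFun.jF N := by
  apply Subtype.ext
  rw [coe_incl, ModFun.coe_jF]
  exact coeffMap_jqModC toC0

omit [NeZero N] in
lemma incl_algebraMap (a : Qb) :
    incl N (algebraMap Qb (Fbar N) a) = algebraMap ℂ (ModFun.FC N) (toC0 a) := by
  apply Subtype.ext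
  rw [coe_incl]
  show coeffMap toC0 (algebraMap Qb (LaurentSeries Qb) a) = algebraMap ℂ (LaurentSeries ℂ) (toC0 a)
  rw [algebraMap_laurentSeries_eq_single, coeffMap_single, algebraMap_laurentSeries_eq_single]

lemma exists_incl_eq_jNF : ∃ x : Fbar N, incl N x = ModFun.jNF N := by
  have h : qExpand Qb N (jqModC Qb) ∈ modularFunctionFieldBar N := by
    rw [modularFunctionFieldBar, ModFun.laurentBaseChange_eq_fullC]
    exact jqModCd_mem_full Qb N dvd_rfl
  refine ⟨⟨_, h⟩, Subtype.ext ?_⟩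
  rw [coe_incl, ModFun.coe_jNF]
  show coeffMap toC0 (qExpand Qb N (jqModC Qb)) = jqNModC ℂ N
  rw [coeffMap_qExpand, coeffMap_jqModC]
  rfl

/-- The set of zeros of an element. -/
def zerosFin (y : Fbar N) : Finset (Place Qb (Fbar N)) :=
  (FF.finite_zeros (K := Qb) y).toFinset

/-- A place is among the zeros of `y` iff `y` has positive order there. -/
lemma mem_zerosFin {y : Fbar N} {v : Place Qb (Fbar N)} : v ∈ zerosFin N y ↔ 0 < v.ord y := by
  simp [zerosFin]

/-- The zeros of a transcendental element, with multiplicity, number its degree. -/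
lemma sum_ord_zerosFin {y : Fbar N} (hy : Transcendental Qb y) :
    ∑ v ∈ zerosFin N y, v.ord y = (Module.finrank Qb⟮y⟯ (Fbar N) : ℤ) := by
  rw [← FF.degree_zeros hy, FF.degree_eq_sum _ (zerosFin N y)]
  · refine Finset.sum_congr rfl fun v hv => ?_
    have hv' := mem_zerosFin N |>.mp hv
    simp only [FF.poles, Finsupp.onFinset_apply, FF.deg_eq_one v, Nat.cast_one, mul_one,
      Place.ord_inv, neg_neg]
    omega
  · intro v hv
    simp only [Finsupp.mem_support_iff, FF.poles, Finsupp.onFinset_apply, Place.ord_inv,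
      neg_neg] at hv
    rw [mem_zerosFin]
    omega

/-- Zeros of `y` correspond to orbits of `g` on the embeddings. -/
theorem card_zeros_eq_orbits {L : Type*} [Field L] [Algebra ℂ L] (vL : Valuation L ℤᵐ⁰)
    (hvL : ∀ c : ℂ, c ≠ 0 → vL (algebraMap ℂ L c) = 1)
    (E : ModFun.Coset N → (ModFun.FC N →ₐ[ℂ] L))
    (hE : Function.Injective fun c => E c (ModFun.jNF N))
    (y : Fbar N) (hy : Transcendental Qb y)
    (hdeg : FiniteDimensional Qb⟮y⟯ (Fbar N) ∧ Module.finrank Qb⟮y⟯ (Fbar N) = dedekindPsi N)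
    (y₀ : L) (hy₀ : ∀ c, E c (incl N y) = y₀) (e₀ : ℕ) (he₀ : e₀ ≠ 0)
    (hord : ordL vL y₀ = e₀) (g : SL(2, ℤ)) (σ : L →+* L)
    (hσ : ∀ c x, E (g • c) x = σ (E c x)) (hσv : ∀ z : L, vL (σ z) = vL z)
    (hfix : ∀ (n : ℕ) (z : L), z ≠ 0 → σ^[n] z = z → (e₀ : ℤ) ∣ (n : ℤ) * ordL vL z) :
    (zerosFin N y).card
      = Nat.card (MulAction.orbitRel.Quotient (Subgroup.zpowers g) (ModFun.Coset N)) := by
  let : Algebra Qb L := ((algebraMap ℂ L).comp toC0).toAlgebra
  let := Fintype.ofFinite (ModFun.Coset N)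
  have := hdeg.1
  let φ : ModFun.Coset N → (Fbar N →ₐ[Qb] L) := fun c =>
    { (E c).toRingHom.comp (incl N) with
      commutes' := fun a => by
        show E c (incl N (algebraMap Qb (Fbar N) a)) = algebraMap ℂ L (toC0 a)
        rw [incl_algebraMap, AlgHom.commutes] }
  have hφ : Function.Injective φ := by
    intro c c' h
    obtain ⟨x, hx⟩ := exists_incl_eq_jNF N
    refine hE ?_
    show E c (ModFun.jNF N) = E c' (ModFun.jNF N)
    rw [← hx]
    exact DFunLike.congr_fun h x
  have hcard : Fintype.card (ModFun.Coset N) = Module.finrank Qb⟮y⟯ (Fbar N) := by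
    rw [← Nat.card_eq_fintype_card, ModFun.natCard_coset, hdeg.2]
  have hy0 : y ≠ 0 := by rintro rfl; exact hy isAlgebraic_zero
  refine Eq.trans ?_ (natCard_orbits_toPerm (Ω := ModFun.Coset N) g)
  refine card_places_eq_card_orbits y (0 : Qb) (by simpa using hy0) vL
    (fun a ha => hvL _ ((_root_.map_ne_zero toC0).mpr ha)) φ hφ hcard y₀ hy₀ e₀ he₀
    (by simpa using hord) (MulAction.toPermHom SL(2, ℤ) (ModFun.Coset N) g) σ
    (fun c x => hσ c (incl N x)) hσv hfix (zerosFin N y) (fun v => by simp [mem_zerosFin]) ?_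
  simp only [map_zero, sub_zero]
  rw [sum_ord_zerosFin N hy, hcard]

omit [NeZero N] in
/-- `j - a` is transcendental over the constants. -/
lemma transcendental_jB_sub (a : Qb) : Transcendental Qb (jB N - algebraMap Qb (Fbar N) a) := by
  intro h
  refine ModFun.transcendental_jBase N Qb ?_
  simpa using h.add (isAlgebraic_algebraMap a)

/-- `j - a` has degree `ψ(N)`. -/
lemma degree_jB_sub (a : Qb) :
    FiniteDimensional Qb⟮jB N - algebraMap Qb (Fbar N) a⟯ (Fbar N) ∧
      Module.finrank Qb⟮jB N - algebraMap Qb (Fbar N) a⟯ (Fbar N) = dedekindPsi N := by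
  rw [FF.adjoin_sub_algebraMap]
  exact ModFun.finrank_baseChange N Qb

/-- `jH - c` in `HolH`. -/
def jSub (c : ℂ) : ModFun.HolH :=
  ⟨fun z => jH z - c, ModFun.mem_HolH.mpr (mdifferentiable_jH.sub mdifferentiable_const)⟩

/-- Zeros of `j - a` for `a = j(τ₀)` correspond to orbits of a stabiliser of `τ₀`. -/
theorem card_zeros_jB_sub (a : Qb) (τ₀ : ℍ) (g : SL(2, ℤ)) (hg : g • τ₀ = τ₀) (e₀ : ℕ)
    (he₀ : e₀ ≠ 0)
    (hord : analyticOrderAt ((fun z => jH z - toC0 a) ∘ ofComplex) (τ₀ : ℂ) = (e₀ : ℕ∞))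
    (hprim : ∀ k : ℤ, (denom g τ₀ ^ 2) ^ k = 1 → (e₀ : ℤ) ∣ k) :
    (zerosFin N (jB N - algebraMap Qb (Fbar N) a)).card
      = Nat.card (MulAction.orbitRel.Quotient (Subgroup.zpowers g) (ModFun.Coset N)) := by
  have hgz : Subgroup.zpowers g = Subgroup.zpowers g⁻¹ := Subgroup.zpowers_inv.symm
  rw [hgz]
  have hord0 : analyticOrderNatAt (((jSub (toC0 a) : ModFun.HolH) : ℍ → ℂ) ∘ ofComplex) (τ₀ : ℂ)
      = e₀ := by
    show (analyticOrderAt ((fun z => jH z - toC0 a) ∘ ofComplex) (τ₀ : ℂ)).toNat = e₀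
    rw [hord, ENat.toNat_natCast]
  have hne : jSub (toC0 a) ≠ 0 := by
    intro h
    rw [h] at hord0
    have : analyticOrderAt (0 : ℂ → ℂ) (τ₀ : ℂ) = ⊤ :=
      analyticOrderAt_eq_top.mpr (Filter.Eventually.of_forall fun _ => rfl)
    simp [analyticOrderNatAt, this] at hord0
    exact he₀ hord0.symm
  refine card_zeros_eq_orbits N (ModFun.valAt τ₀) (fun c hc => ModFun.valAt_constant hc τ₀)
    (ModFun.emb N) ?_ _ (transcendental_jB_sub N a) (degree_jB_sub N a)
    (algebraMap ModFun.HolH ModFun.MerH (jSub (toC0 a))) ?_ e₀ he₀ ?_ g⁻¹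
    (ModFun.actMer g : ModFun.MerH →+* ModFun.MerH) ?_ ?_ ?_
  · intro c c' h
    refine ModFun.tr_jd_injective (N := N) (ModFun.toMerH_injective N ?_)
    simp only [ModFun.jNF, ModFun.emb_toFC] at h
    exact h
  · intro c
    rw [map_sub, incl_jB, incl_algebraMap, map_sub, AlgHom.commutes, ModFun.emb_jF,
      ← (ModFun.toMerH N).commutes (toC0 a), ← map_sub, ModFun.toMerH_apply]
    exact congrArg _ (Subtype.ext (funext fun z => rfl))
  · show ModFun.ordMer τ₀ _ = _
    rw [ModFun.ordMer_algebraMap hne, ModFun.ordHol, hord0]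
  · intro c x
    exact (ModFun.emb_smul g c x).symm
  · intro z
    show ModFun.valAt τ₀ (ModFun.actMer g z) = _
    rw [ModFun.valAt_actMer, hg]
  · intro n z hz hfix
    exact ordMer_dvd hg e₀ hprim n z hz hfix

omit [NeZero N] in
lemma pm_one_smul {g : SL(2, ℤ)} (h : g = 1 ∨ g = -1) (c : ModFun.Coset N) : g • c = c := by
  rcases h with rfl | rfl
  · exact one_smul _ _
  · exact Gamma0.neg_one_smul_coset (Gamma0.neg_one_mem_Gamma0 N) c

/-- `j - a` has `ψ(N)` distinct zeros for `a ≠ 0, 1728`. -/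
theorem card_zeros_generic (a : Qb) (h0 : a ≠ 0) (h1 : a ≠ 1728) :
    (zerosFin N (jB N - algebraMap Qb (Fbar N) a)).card = dedekindPsi N := by
  obtain ⟨τ₀, hτ⟩ := jH_surjective (toC0 a)
  rw [card_zeros_jB_sub N a τ₀ 1 (one_smul _ _) 1 one_ne_zero ?_ (fun k _ => one_dvd _)]
  · have h := (Gamma0.card_add_mul_fixed (X := ModFun.Coset N) (1 : SL(2, ℤ)) Nat.prime_two
      (fun c => by rw [one_pow, one_smul])).symm
    have hf : Nat.card (MulAction.fixedBy (ModFun.Coset N) (1 : SL(2, ℤ)))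
        = Nat.card (ModFun.Coset N) := by
      rw [MulAction.fixedBy_one_eq_univ, Nat.card_univ]
    rw [hf, ModFun.natCard_coset] at h
    exact Nat.eq_of_mul_eq_mul_left two_pos (h.trans (by omega : _ = 2 * dedekindPsi N))
  · exact analyticOrderAt_jH_sub ((_root_.map_ne_zero toC0).mpr h0)
      (fun h => h1 (toC0.injective (by rw [h, map_ofNat]))) hτ

/-- Zeros of `j - 1728`. -/
theorem two_mul_card_zeros_1728 :
    2 * (zerosFin N (jB N - algebraMap Qb (Fbar N) 1728)).card = dedekindPsi N + nuTwo N := by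
  rw [card_zeros_jB_sub N 1728 UpperHalfPlane.I ModularGroup.S S_smul_I 2 two_ne_zero ?_ ?_]
  · refine (Gamma0.card_add_mul_fixed (X := ModFun.Coset N) ModularGroup.S Nat.prime_two
      (fun c => ?_)).symm.trans ?_
    swap
    · rw [Gamma0.natCard_fixedBy_S, ModFun.natCard_coset]
      norm_num
    exact pm_one_smul N (Or.inr (by rw [pow_two]; exact Gamma0.S_mul_S)) c
  · rw [map_ofNat]
    exact analyticOrderAt_jH_sub_1728 E₆_I
  · intro k hk
    rw [ModularGroup.denom_S, show ((UpperHalfPlane.I : ℍ) : ℂ) ^ 2 = -1 by simp] at hk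
    exact (IsPrimitiveRoot.neg_one 0 (by norm_num)).zpow_eq_one_iff_dvd k |>.mp hk

/-- Zeros of `j`. -/
theorem three_mul_card_zeros_zero :
    3 * (zerosFin N (jB N - algebraMap Qb (Fbar N) 0)).card = dedekindPsi N + 2 * nuThree N := by
  have hρ : IsPrimitiveRoot (UpperHalfPlane.ρ : ℂ) 3 := by
    have hs := UpperHalfPlane.ρ_sq
    have h3 : (UpperHalfPlane.ρ : ℂ) ^ 3 = 1 := by
      linear_combination ((UpperHalfPlane.ρ : ℂ) - 1) * hs
    have hne : (UpperHalfPlane.ρ : ℂ) ≠ 1 := by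
      intro h; rw [h] at hs; norm_num at hs
    exact IsPrimitiveRoot.of_map_of_injective (f := MonoidHom.id ℂ) (by
      rw [MonoidHom.id_apply]
      exact (orderOf_eq_prime h3 hne) ▸ IsPrimitiveRoot.orderOf _) Function.injective_id
  rw [card_zeros_jB_sub N 0 UpperHalfPlane.ρ Gamma0.ST ST_smul_ρ 3 three_ne_zero ?_ ?_]
  · refine (Gamma0.card_add_mul_fixed (X := ModFun.Coset N) Gamma0.ST Nat.prime_three
      (fun c => ?_)).symm.trans ?_
    swap
    · rw [Gamma0.natCard_fixedBy_ST, ModFun.natCard_coset]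
    exact pm_one_smul N (Or.inr Gamma0.ST_pow_three) c
  · simp only [map_zero, sub_zero]
    exact analyticOrderAt_jH_zero E₄_ρ
  · intro k hk
    have hd : denom Gamma0.ST (UpperHalfPlane.ρ : ℂ) = (UpperHalfPlane.ρ : ℂ) + 1 := by
      rw [Gamma0.ST, ModularGroup.denom_apply]
      simp [Matrix.SpecialLinearGroup.coe_mul, ModularGroup.coe_S, ModularGroup.coe_T]
    rw [hd, show ((UpperHalfPlane.ρ : ℂ) + 1) ^ 2 = UpperHalfPlane.ρ by
      linear_combination UpperHalfPlane.ρ_sq] at hk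
    exact (hρ.zpow_eq_one_iff_dvd k).mp hk

lemma order_qExpand_jqModC : (qExpand ℂ N (jqModC ℂ)).order = -(N : ℤ) := by
  have hne : (qExpand ℂ N (jqModC ℂ)).coeff ((N : ℤ) * (-1)) ≠ 0 := by
    rw [qExpand_coeff_mul, coeff_jqModC_neg_one]; exact one_ne_zero
  apply le_antisymm
  · simpa using HahnSeries.order_le_of_coeff_ne_zero hne
  · by_contra hlt
    rw [not_le] at hlt
    have hN : qExpand ℂ N (jqModC ℂ) ≠ 0 := fun h => hne (by rw [h]; rfl)
    refine HahnSeries.coeff_order_eq_zero.not.mpr hN ?_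
    by_cases hd : (N : ℤ) ∣ (qExpand ℂ N (jqModC ℂ)).order
    · obtain ⟨m, hm⟩ := hd
      rw [hm, qExpand_coeff_mul]
      rw [hm] at hlt
      refine coeff_jqModC_of_lt ℂ ?_
      nlinarith
    · exact qExpand_coeff_of_not_dvd N _ hd

lemma adjoin_inv_degree :
    FiniteDimensional Qb⟮(jB N)⁻¹⟯ (Fbar N) ∧
      Module.finrank Qb⟮(jB N)⁻¹⟯ (Fbar N) = dedekindPsi N := by
  rw [FF.adjoin_inv_eq]
  exact ModFun.finrank_baseChange N Qb

/-- Poles of `j`. -/
theorem card_zeros_inv : (zerosFin N (jB N)⁻¹).card = cuspCount N := by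
  rw [← Gamma0.natCard_cusps N]
  have hz : Subgroup.zpowers ModularGroup.T = Subgroup.zpowers ModularGroup.T⁻¹ :=
    Subgroup.zpowers_inv.symm
  show _ = Nat.card (MulAction.orbitRel.Quotient (Subgroup.zpowers ModularGroup.T) (ModFun.Coset N))
  rw [hz]
  refine card_zeros_eq_orbits N (Valued.v : Valuation (LaurentSeries ℂ) ℤᵐ⁰)
    (fun c hc => valuation_const hc) (ModFun.cuspEmb N)
    ?_ _ (fun h => ModFun.transcendental_jBase N Qb (IsAlgebraic.inv_iff.mp h))
      (adjoin_inv_degree N)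
    (qExpand ℂ N (jqModC ℂ))⁻¹ ?_ N (NeZero.ne N) ?_ ModularGroup.T⁻¹
    (ModFun.twist (ModFun.affineRoot 1 N)) ?_ (fun z => valuation_twist _ z) ?_
  · intro c c' h
    refine ModFun.tr_jd_injective (N := N) (ModFun.laurentExp_injective N ?_)
    simp only [ModFun.jNF, ModFun.cuspEmb_toFC] at h
    exact h
  · intro c
    rw [map_inv₀, incl_jB, map_inv₀, ModFun.cuspEmb_jF, ModFun.laurentExp_jC_width]
  · show -(WithZero.log (Valued.v _)) = _
    rw [map_inv₀, WithZero.log_inv, neg_log_valuation, order_qExpand_jqModC, neg_neg]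
  · intro c x
    exact cuspEmb_T N c x
  · intro n z hz hfix
    show (N : ℤ) ∣ (n : ℤ) * -(WithZero.log (Valued.v z))
    rw [neg_log_valuation]
    exact order_dvd_of_twist_fixed N n z hz hfix

end Fermat.Agent.Genus
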